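import Fermat.Agent.ThetaAGM.ModulusDeriv
import Fermat.Agent.Root.SummaryCentralValue

/-!
# The central value at level 32 as a Beta integral

`η(4 i u)² η(8 i u)² = (θ₂² θ₃ θ₄)(4 u) / 4`, and `L(f, 1) = 2 π ∫ f(i u) du`.
-/

set_option autoImplicit false
set_option linter.style.haveILetI false

noncomputable section

open UpperHalfPlane hiding I
open Complex (I)
open ModularForm MeasureTheory Set
open FA.ThetaAGM
open scoped Real

namespace FA.BSD32

theorem form32_axis {u : ℝ} (hu : 0 < u) :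
    FA.CM.form32 (ofComplex (I * (u : ℂ))) =
      ((thetaTwo (4 * u) ^ 2 * thetaThree (4 * u) * thetaFour (4 * u) / 4 : ℝ) : ℂ) := by
  have hI : 0 < (I * (u : ℂ)).im := by simpa using hu
  show FA.CM.cm32 (ofComplex (I * (u : ℂ))) = _
  rw [ofComplex_apply_of_im_pos hI, FA.CM.cm32, FA.ModField.coe_scaleH, FA.ModField.coe_scaleH]
  rw [show ((4 : ℕ) : ℂ) * (I * (u : ℂ)) = ((4 * u : ℝ) : ℂ) * I by push_cast; ring,
    show ((8 : ℕ) : ℂ) * (I * (u : ℂ)) = ((2 * (4 * u) : ℝ) : ℂ) * I by push_cast; ring,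
    eta_axis (by positivity), eta_axis (by positivity), ← Complex.ofReal_pow,
    ← Complex.ofReal_pow, ← Complex.ofReal_mul]
  congr 1
  have hs : 0 < 4 * u := by positivity
  have h := theta_product hs
  have h2 := thetaTwo_eq_eta hs
  have := etaAxis_pos hs
  rw [show thetaTwo (4 * u) ^ 2 * thetaThree (4 * u) * thetaFour (4 * u) =
    thetaTwo (4 * u) * (thetaTwo (4 * u) * thetaThree (4 * u) * thetaFour (4 * u)) by ring, h, h2]
  field_simp
  ring

theorem integral_form32_axis :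
    ∫ u in Ioi (0 : ℝ), FA.CM.form32 (ofComplex (I * (u : ℂ))) =
      ((Real.Gamma (1 / 2) * Real.Gamma (1 / 4) / Real.Gamma (3 / 4) / π / 16 : ℝ) : ℂ) := by
  rw [setIntegral_congr_fun measurableSet_Ioi fun u (hu : 0 < u) => form32_axis hu,
    integral_complex_ofReal, ← integral_theta_product]
  congr 1
  have h := integral_comp_mul_left_Ioi
    (fun s : ℝ => thetaTwo s ^ 2 * thetaThree s * thetaFour s / 4) 0 (show (0 : ℝ) < 4 by norm_num)
  rw [mul_zero] at h
  rw [h, integral_div, smul_eq_mul]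
  ring

/-- The value at the centre of any entire continuation. -/
theorem centralValue_eq_integral {G : ℂ → ℂ} (hG : Differentiable ℂ G)
    (hGs : ∀ s : ℂ, 2 < s.re →
      G s = (⟨0, 0, 0, -1, 0⟩ : WeierstrassCurve ℚ).LSeries s) :
    G 1 = 2 * π * ∫ u in Ioi (0 : ℝ), FA.CM.form32 (ofComplex (I * (u : ℂ))) := by
  have ha := FA.CM.qCoeff_form32_eq_LFunction
  rw [FA.Central.centralValue_eq (M := 32) FA.CM.form32 FA.CM.cm32_fricke
    (⟨0, 0, 0, -1, 0⟩ : WeierstrassCurve ℚ) ha hG hGs]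
  have hM : 0 < √((32 : ℕ) : ℝ) := Real.sqrt_pos.mpr (by norm_num)
  have hr : 0 < 2 * π / √((32 : ℕ) : ℝ) := div_pos Real.two_pi_pos hM
  have h1 := FA.Central.completedAt_one (M := 32) FA.CM.form32 FA.CM.cm32_fricke
  rw [FA.Twists.completedAt_eq_mellin, mellin] at h1
  simp only [sub_self, Complex.cpow_zero, one_smul] at h1
  rw [integral_comp_mul_left_Ioi
      (fun u : ℝ => FA.CM.form32 (ofComplex (I * (u : ℂ)))) 0 (inv_pos.mpr hM), mul_zero,
    setIntegral_congr_fun measurableSet_Ioi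
      (g := fun t : ℝ => ∑' n : ℕ, ((⟨0, 0, 0, -1, 0⟩ : WeierstrassCurve ℚ).LFunction n : ℂ) *
        (Real.exp (-(2 * π / √((32 : ℕ) : ℝ) * n) * t) : ℂ)) fun t (ht : 1 < t) => ?_,
    FA.Central.integral_tsum_exp (FA.Central.norm_LFunction_le _) hr, inv_inv] at h1
  · rw [Complex.real_smul] at h1
    have hM' : ((√((32 : ℕ) : ℝ) : ℝ) : ℂ) ≠ 0 := Complex.ofReal_ne_zero.mpr hM.ne'
    have hπ : (π : ℂ) ≠ 0 := Complex.ofReal_ne_zero.mpr Real.pi_ne_zero
    have hs : ∀ n : ℕ, ((⟨0, 0, 0, -1, 0⟩ : WeierstrassCurve ℚ).LFunction n : ℂ) /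
        (((2 * π / √((32 : ℕ) : ℝ) : ℝ) : ℂ) * n) *
        (Real.exp (-(2 * π / √((32 : ℕ) : ℝ) * n)) : ℂ) =
        ((√((32 : ℕ) : ℝ) : ℝ) : ℂ) / (2 * π) *
          (((⟨0, 0, 0, -1, 0⟩ : WeierstrassCurve ℚ).LFunction n : ℂ) / n *
            (Real.exp (-(2 * π * n / √((32 : ℕ) : ℝ))) : ℂ)) := fun n => by
      rw [show 2 * π / √((32 : ℕ) : ℝ) * n = 2 * π * n / √((32 : ℕ) : ℝ) by ring]
      push_cast
      rcases eq_or_ne (n : ℂ) 0 with h0 | h0
      · simp [h0]
      · field_simp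
    simp only [hs, tsum_mul_left] at h1
    refine mul_left_cancel₀ hM' ?_
    rw [mul_left_comm _ (2 * (π : ℂ)), h1]
    field_simp
  · rw [← (FA.Central.hasSum_imAxis FA.CM.form32
      (mul_pos (inv_pos.mpr hM) (zero_lt_one.trans ht))).tsum_eq]
    refine tsum_congr fun n => ?_
    rw [ha n]
    congr 3
    ring

end FA.BSD32

end
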